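import Fermat.Agent.HeckeJ0.Act
import Fermat.Agent.HeckeJ0.Periods
import Mathlib.LinearAlgebra.Dual.Lemmas

/-!
Conjugation by the Fricke matrix commutes with the Hecke transfer at primes prime to the level, and
homomorphisms killing parabolic and elliptic elements are determined by their coordinates.
-/

set_option autoImplicit false

noncomputable section

open Matrix.SpecialLinearGroup CongruenceSubgroup
open scoped MatrixGroups OnePoint

universe uA

namespace Fermat.Agent.XHLite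

open HeckeJ0

variable {N : ℕ} [NeZero N] {A : Type uA} [AddCommGroup A]

theorem frickeTwist_apply (ψ : Additive (Gamma0 N) →+ A) (γ : Gamma0 N) :
    frickeTwist ψ (Additive.ofMul γ) = ψ (Additive.ofMul (frickeConj γ)) := rfl

theorem frickeTwist_frickeTwist (ψ : Additive (Gamma0 N) →+ A) :
    frickeTwist (frickeTwist ψ) = ψ := by
  refine AddMonoidHom.ext fun γ => ?_
  obtain ⟨γ, rfl⟩ := Additive.ofMul.surjective γ
  rw [frickeTwist_apply, frickeTwist_apply, frickeConj_frickeConj]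

theorem isGoodHom_frickeTwist {ψ : Additive (Gamma0 N) →+ A} (hψ : IsGoodHom N ψ) :
    IsGoodHom N (frickeTwist ψ) := fun g hg => by
  rw [frickeTwist_apply]
  refine hψ _ ?_
  show ((frickeConj g : SL(2, ℤ)) : Matrix (Fin 2) (Fin 2) ℤ).trace ^ 2 ≤ 4
  rw [trace_frickeConj]
  exact hg

variable {ℓ : ℕ} [Fact ℓ.Prime] [NeZero ℓ]

/-- The index of `(ℓ 0; 0 1)`. -/
def idxInfty (hℓN : ¬ ℓ ∣ N) : Idx N ℓ := ⟨∞, fun h => absurd h hℓN⟩

omit [NeZero ℓ] in
/-- `W (1 0; 0 ℓ) = (ℓ 0; 0 1) W`. -/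
theorem fricke_mul_rep_idx0 (hℓN : ¬ ℓ ∣ N) :
    fricke N * rep (idx0 N ℓ) = rep (idxInfty hℓN) * fricke N := by
  rcases rep_cases (idxInfty hℓN) with ⟨j, hj, -⟩ | ⟨-, -, hy⟩
  · exact absurd hj.symm (OnePoint.coe_ne_infty _)
  refine Units.ext ?_
  rw [Units.val_mul, Units.val_mul, hy, isTri_rep_idx0, val_fricke]
  ext i k
  fin_cases i <;> fin_cases k <;> simp [Matrix.mul_apply, Fin.sum_univ_two, mul_comm]

theorem exists_fricke_perm (hℓN : ¬ ℓ ∣ N) :
    ∃ (e : Idx N ℓ ≃ Idx N ℓ) (u : Idx N ℓ → Gamma0 N), ∀ x,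
      fricke N * rep x = mapGL ℝ (u x : SL(2, ℤ)) * rep (e x) * fricke N := by
  have h : ∀ x : Idx N ℓ, ∃ (y : Idx N ℓ) (u : Gamma0 N),
      fricke N * rep x = mapGL ℝ (u : SL(2, ℤ)) * rep y * fricke N := by
    intro x
    have h0 := HeckeJ0.rep_mul (idx0 N ℓ) (gammaOf x)
    rw [permOf_gammaOf] at h0
    have hx : rep x = mapGL ℝ (((gOf (idx0 N ℓ) (gammaOf x))⁻¹ : Gamma0 N) : SL(2, ℤ)) *
        rep (idx0 N ℓ) * mapGL ℝ ((gammaOf x : Gamma0 N) : SL(2, ℤ)) := by
      rw [mul_assoc, h0, Subgroup.coe_inv, map_inv, inv_mul_cancel_left]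
    refine ⟨permOf (frickeConj (gammaOf x)) (idxInfty hℓN),
      frickeConj (gOf (idx0 N ℓ) (gammaOf x))⁻¹ * gOf (idxInfty hℓN) (frickeConj (gammaOf x)), ?_⟩
    conv_lhs => rw [hx]
    rw [← mul_assoc, ← mul_assoc, ← frickeConj_mul_fricke, mul_assoc _ (fricke N),
      fricke_mul_rep_idx0 hℓN, ← mul_assoc, mul_assoc _ (fricke N), ← frickeConj_mul_fricke,
      ← mul_assoc, mul_assoc _ (rep (idxInfty hℓN)), HeckeJ0.rep_mul, Subgroup.coe_mul, map_mul]
    simp only [mul_assoc]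
  choose e u hu using h
  have hinj : Function.Injective e := by
    intro x y hxy
    have h1 := hu x
    rw [hxy] at h1
    refine rep_unique ((frickeConj (u y * (u x)⁻¹) : Gamma0 N) : SL(2, ℤ)) (mul_left_cancel
      (a := fricke N) ?_)
    rw [← mul_assoc, ← frickeConj_mul_fricke, frickeConj_frickeConj, mul_assoc, h1, hu y,
      Subgroup.coe_mul, Subgroup.coe_inv, map_mul, map_inv]
    simp only [mul_assoc, inv_mul_cancel_left]
  exact ⟨Equiv.ofBijective e (Finite.injective_iff_bijective.mp hinj), u, hu⟩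

theorem cohHecke_frickeTwist (hℓN : ¬ ℓ ∣ N) (ψ : Additive (Gamma0 N) →+ A) :
    cohHecke ℓ (frickeTwist ψ) = frickeTwist (cohHecke ℓ ψ) := by
  obtain ⟨e, u, hu⟩ := exists_fricke_perm hℓN
  obtain ⟨F, hF⟩ := exists_equivariant ψ
  set W := fricke N
  have hF' : ∀ (g : Gamma0 N) (M : GL (Fin 2) ℝ),
      (fun M => F (W * M * W⁻¹)) ((mapGL ℝ (g : SL(2, ℤ)) : GL (Fin 2) ℝ) • M) =
        frickeTwist ψ (Additive.ofMul g) + (fun M => F (W * M * W⁻¹)) M := by
    intro g M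
    show F (W * (mapGL ℝ (g : SL(2, ℤ)) * M) * W⁻¹) = _
    rw [frickeTwist_apply, ← hF (frickeConj g) (W * M * W⁻¹), smul_eq_mul]
    congr 1
    rw [← mul_assoc W, ← frickeConj_mul_fricke]
    simp only [mul_assoc, W]
  have key : ∀ M : GL (Fin 2) ℝ, ∑ x : Idx N ℓ, (fun M => F (W * M * W⁻¹)) (rep x • M)
      = (∑ x, ψ (Additive.ofMul (u x))) + ∑ y : Idx N ℓ, F (rep y • (W * M * W⁻¹)) := by
    intro M
    rw [← Equiv.sum_comp e fun y : Idx N ℓ => F (rep y • (W * M * W⁻¹)), ← Finset.sum_add_distrib]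
    refine Finset.sum_congr rfl fun x _ => ?_
    show F (W * (rep x * M) * W⁻¹) = _
    rw [← hF (u x), smul_eq_mul, smul_eq_mul]
    congr 1
    rw [← mul_assoc W, hu x]
    simp only [mul_assoc, W]
  refine AddMonoidHom.ext fun γ => ?_
  obtain ⟨γ, rfl⟩ := Additive.ofMul.surjective γ
  have h1 := sum_rep_smul_sub ℓ (fun M : GL (Fin 2) ℝ => F (W * M * W⁻¹)) (frickeTwist ψ) hF' γ (1 : GL (Fin 2) ℝ)
  rw [key, key] at h1
  have h2 := sum_rep_smul_sub ℓ F ψ hF (frickeConj γ) (W * 1 * W⁻¹)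
  have e1 : W * ((mapGL ℝ (γ : SL(2, ℤ)) : GL (Fin 2) ℝ) • (1 : GL (Fin 2) ℝ)) * W⁻¹
      = (mapGL ℝ (frickeConj γ : SL(2, ℤ)) : GL (Fin 2) ℝ) • (W * 1 * W⁻¹) := by
    rw [smul_eq_mul, smul_eq_mul, mul_one, mul_one, ← frickeConj_mul_fricke]
    simp only [mul_assoc, W]
  rw [e1, h2, add_left_comm] at h1
  rw [frickeTwist_apply]
  exact (add_right_cancel h1).symm

/-- Good homomorphisms into a field of characteristic zero are given by their coordinates. -/
theorem ofCoords_coords_field {K : Type uA} [Field K] [CharZero K]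
    {ψ : Additive (Gamma0 N) →+ K} (hψ : IsGoodHom N ψ) : ofCoords N (coords N ψ) = ψ := by
  refine AddMonoidHom.ext fun g => ?_
  rw [← sub_eq_zero, ← Module.forall_dual_apply_eq_zero_iff ℚ]
  intro φ
  let f : K →+ ℂ := (Rat.castHom ℂ).toAddMonoidHom.comp φ.toAddMonoidHom
  have h := ofCoords_coords_complex N (isGoodHom_map N f hψ)
  have h' : f (ofCoords N (coords N ψ) g) = f (ψ g) := by
    have e := DFunLike.congr_fun (map_ofCoords N f (coords N ψ)) g
    rw [AddMonoidHom.comp_apply] at e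
    rw [e]
    exact DFunLike.congr_fun h g
  rw [map_sub, sub_eq_zero]
  exact Rat.cast_injective h'

end Fermat.Agent.XHLite
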