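import Fermat.Agent.XHLite.Twist.Defs
import Fermat.Agent.XHLite.TwistClass.Fricke
import Fermat.Agent.EigenSystems.Parabolic
import Fermat.Agent.EigenSystems.TwistInjective
import Mathlib.LinearAlgebra.Matrix.SpecialLinearGroup
import Mathlib.LinearAlgebra.Dual.Lemmas

/-!
The twisted class is not killed by the twisting functional.

If it were, the values `z` of the class on `twistKer` would satisfy
`n q z(k) = ∑_{h, x} z(T_x h k h⁻¹ T_x⁻¹)` for the `n` cosets `h`.  Transported to the finite quotient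
of `Γ₀(N)` by the scalar matrices modulo `q` this is an averaging operator by permutations, so its
fixed functions are fixed by each permutation (sum of squares), and `z` is invariant under
translation by `1/q`; then the class is zero.
-/

set_option autoImplicit false

noncomputable section

open Matrix.SpecialLinearGroup CongruenceSubgroup
open scoped MatrixGroups OnePoint

namespace Fermat.Agent.XHLite

open EigenSystems

variable {N q : ℕ}

section Shift

variable [NeZero q]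

/-- Conjugation by `(1 i/q; 0 1)`, in level `N q`. -/
def toShift (i : ℤ) (k : twistKer N q) : Gamma0 (N * q) :=
  ⟨(conjShift i k : SL(2, ℤ)), (HeckeJ0.mem_Gamma0_iff_dvd _).mpr
    ((Int.natCast_dvd_natCast.mpr (dvd_mul_right (N * q) q)).trans
      ((HeckeJ0.mem_Gamma0_iff_dvd _).mp (conjShift i k).2))⟩

theorem conjShift_rel (i : ℤ) (k : twistKer N q) :
    twistMat q i * HeckeModule.toGL (N * q) (k : Gamma0 (N * q))
      = HeckeModule.toGL (N * q * q) (conjShift i k) * twistMat q i := by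
  obtain ⟨c, hc⟩ := twistKer_dvd k.2
  obtain ⟨e, he⟩ := twistKer_sub_dvd k.2
  push_cast at hc
  have hq : (q : ℤ) ≠ 0 := Int.natCast_ne_zero.mpr (NeZero.ne q)
  have hqR : (q : ℝ) ≠ 0 := Nat.cast_ne_zero.mpr (NeZero.ne q)
  have h1 : ((k : Gamma0 (N * q)) : SL(2, ℤ)) 1 0 / (q : ℤ) = N * q * c := by
    rw [show ((k : Gamma0 (N * q)) : SL(2, ℤ)) 1 0 = q * (N * q * c) by rw [hc]; ring,
      Int.mul_ediv_cancel_left _ hq]
  have h2 : ((k : Gamma0 (N * q)) : SL(2, ℤ)) 1 0 / (q : ℤ) / q = N * c := by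
    rw [h1, show (N : ℤ) * q * c = q * (N * c) by ring, Int.mul_ediv_cancel_left _ hq]
  have h3 : (((k : Gamma0 (N * q)) : SL(2, ℤ)) 1 1 - ((k : Gamma0 (N * q)) : SL(2, ℤ)) 0 0) / (q : ℤ)
      = e := by rw [he, Int.mul_ediv_cancel_left _ hq]
  have hcR : ((((k : Gamma0 (N * q)) : SL(2, ℤ)) 1 0 : ℤ) : ℝ) = (N : ℝ) * q * q * c := by
    exact_mod_cast hc
  have heR : ((((k : Gamma0 (N * q)) : SL(2, ℤ)) 1 1 : ℤ) : ℝ)
      - ((((k : Gamma0 (N * q)) : SL(2, ℤ)) 0 0 : ℤ) : ℝ) = (q : ℝ) * e := by exact_mod_cast he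
  refine Units.ext ?_
  rw [Units.val_mul, Units.val_mul, val_twistMat]
  ext a b
  simp only [Matrix.mul_apply, Fin.sum_univ_two, HeckeModule.toGL_apply, HeckeJ0.val_mapGL_apply]
  fin_cases a <;> fin_cases b <;> simp [conjShift, h2, h3, hcR] <;> (try rw [h1]) <;> (try push_cast) <;>
    field_simp
  all_goals first
    | ring1
    | linear_combination (i : ℝ) * heR
    | linear_combination -(i : ℝ) * heR
    | linear_combination heR
    | linear_combination -heR

theorem toShift_rel (i : ℤ) (k : twistKer N q) :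
    twistMat q i * HeckeModule.toGL (N * q) (k : Gamma0 (N * q))
      = HeckeModule.toGL (N * q) (toShift i k) * twistMat q i :=
  conjShift_rel i k

theorem dMod_toShift (i : ℤ) (k : twistKer N q) :
    dMod N q (toShift i k) = dMod N q (k : Gamma0 (N * q)) := by
  refine Units.ext ?_
  rw [coe_dMod, coe_dMod]
  show (((((k : Gamma0 (N * q)) : SL(2, ℤ)) 1 1
    - i * (((k : Gamma0 (N * q)) : SL(2, ℤ)) 1 0 / (q : ℤ)) : ℤ)) : ZMod q) = _
  obtain ⟨c, hc⟩ := twistKer_dvd k.2
  push_cast at hc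
  rw [show ((k : Gamma0 (N * q)) : SL(2, ℤ)) 1 0 / (q : ℤ) = N * q * c by
    rw [show ((k : Gamma0 (N * q)) : SL(2, ℤ)) 1 0 = q * (N * q * c) by rw [hc]; ring,
      Int.mul_ediv_cancel_left _ (Int.natCast_ne_zero.mpr (NeZero.ne q))]]
  simp

theorem toShift_mem_charKer {R : Type*} [CommMonoid R] (ψ : (ZMod q)ˣ →* R) (i : ℤ)
    (k : twistKer N q) : toShift i k ∈ charKer N q (ψ ^ 2) := by
  show (ψ ^ 2) (dMod N q (toShift i k)) = 1
  rw [dMod_toShift]
  exact twistKer_le_charKer ψ k.2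

end Shift

section Average

/-- A function averaged to itself by permutations is invariant under each of them. -/
theorem apply_perm_eq_of_sum {ι Q : Type*} [Fintype ι] [Fintype Q] (σ : ι → Equiv.Perm Q)
    (f : Q → ℚ) (h : ∀ x, (Fintype.card ι : ℚ) * f x = ∑ i, f (σ i x)) (i : ι) (x : Q) :
    f (σ i x) = f x := by
  have key : ∑ j : ι, ∑ y : Q, (f (σ j y) - f y) ^ 2 = 0 := by
    have h1 : ∀ j : ι, ∑ y : Q, (f (σ j y) - f y) ^ 2
        = 2 * ∑ y : Q, f y ^ 2 - 2 * ∑ y : Q, f y * f (σ j y) := fun j => by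
      simp only [sub_sq, Finset.sum_add_distrib, Finset.sum_sub_distrib,
        Equiv.sum_comp (σ j) fun y => f y ^ 2, Finset.mul_sum, mul_assoc, mul_comm (f (σ j _))]
      rw [← Finset.mul_sum, ← Finset.mul_sum]
      ring
    rw [Finset.sum_congr rfl fun j _ => h1 j, Finset.sum_sub_distrib, ← Finset.mul_sum _ _ (2 : ℚ),
      ← Finset.mul_sum _ _ (2 : ℚ), Finset.sum_comm (f := fun j y => f y * f (σ j y))]
    simp only [← Finset.mul_sum, ← h, Finset.sum_const, Finset.card_univ, nsmul_eq_mul]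
    rw [Finset.sum_congr rfl fun y _ => show f y * ((Fintype.card ι : ℚ) * f y)
      = (Fintype.card ι : ℚ) * f y ^ 2 by ring, ← Finset.mul_sum]
    ring
  rw [Finset.sum_eq_zero_iff_of_nonneg fun j _ => Finset.sum_nonneg fun y _ => sq_nonneg _] at key
  have h2 := key i (Finset.mem_univ _)
  rw [Finset.sum_eq_zero_iff_of_nonneg fun y _ => sq_nonneg _] at h2
  exact sub_eq_zero.mp (pow_eq_zero_iff (two_ne_zero (α := ℕ)) |>.mp (h2 x (Finset.mem_univ _)))

end Average

section Scalar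

variable (N q)

/-- The elements of `Γ₀(N)` which are scalar modulo `q`. -/
def scalarKer : Subgroup (Gamma0 N) :=
  (Subgroup.center (SL(2, ZMod q))).comap
    ((Matrix.SpecialLinearGroup.map (Int.castRingHom (ZMod q))).comp (Gamma0 N).subtype)

instance : (scalarKer N q).Normal := Subgroup.Normal.comap inferInstance _

instance [NeZero q] : (scalarKer N q).FiniteIndex := by
  constructor
  rw [scalarKer, Subgroup.index_comap]
  exact Nat.ne_zero_of_lt (Nat.pos_of_ne_zero (Subgroup.FiniteIndex.index_ne_zero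
    (H := (Subgroup.center (SL(2, ZMod q))).subgroupOf
      ((Matrix.SpecialLinearGroup.map (Int.castRingHom (ZMod q))).comp (Gamma0 N).subtype).range)))

variable {N q}

theorem scalarKer_facts {g : Gamma0 N} (hg : g ∈ scalarKer N q) :
    (q : ℤ) ∣ (g : SL(2, ℤ)) 0 1 ∧ (q : ℤ) ∣ (g : SL(2, ℤ)) 1 0 ∧
      ((((g : SL(2, ℤ)) 1 1 : ℤ)) : ZMod q) ^ 2 = 1 := by
  rw [scalarKer, Subgroup.mem_comap, Matrix.SpecialLinearGroup.mem_center_iff] at hg
  obtain ⟨r, hr, h⟩ := hg
  have e := fun i j => congrFun (congrFun h i) j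
  refine ⟨?_, ?_, ?_⟩
  · rw [← ZMod.intCast_zmod_eq_zero_iff_dvd]
    simpa [Matrix.scalar] using (e 0 1).symm
  · rw [← ZMod.intCast_zmod_eq_zero_iff_dvd]
    simpa [Matrix.scalar] using (e 1 0).symm
  · have h11 := e 1 1
    simp [Matrix.scalar] at h11
    rw [← h11]
    simpa using hr

end Scalar

section Down

variable [NeZero q]

theorem exists_down (g : Gamma0 (N * q)) : ∃ g' : Gamma0 N,
    HeckeModule.degenMat q * HeckeModule.toGL (N * q) g
      = HeckeModule.toGL N g' * HeckeModule.degenMat q := by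
  obtain ⟨g', h, -⟩ := HeckeModule.exists_conjDegen (NeZero.ne q)
    (show q * N ∣ N * q by rw [mul_comm]) g
  exact ⟨g', h⟩

/-- Conjugation by `diag (q, 1)`. -/
def down : Gamma0 (N * q) →* Gamma0 N where
  toFun g := (exists_down g).choose
  map_one' := by
    have h := (exists_down (1 : Gamma0 (N * q))).choose_spec
    refine HeckeModule.toGL_injective (mul_right_cancel (b := HeckeModule.degenMat q) ?_)
    refine h.symm.trans ?_
    rw [map_one, map_one, mul_one, one_mul]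
  map_mul' g g₂ := by
    have h := (exists_down (g * g₂)).choose_spec
    have h1 := (exists_down g).choose_spec
    have h2 := (exists_down g₂).choose_spec
    refine HeckeModule.toGL_injective (mul_right_cancel (b := HeckeModule.degenMat q) ?_)
    refine h.symm.trans ?_
    rw [map_mul, map_mul, ← mul_assoc]
    refine (congrArg (· * HeckeModule.toGL (N * q) g₂) h1).trans ?_
    refine (mul_assoc _ _ _).trans ?_
    exact (congrArg (HeckeModule.toGL N (exists_down g).choose * ·) h2).trans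
      (mul_assoc _ _ _).symm

theorem down_rel (g : Gamma0 (N * q)) :
    HeckeModule.degenMat q * HeckeModule.toGL (N * q) g
      = HeckeModule.toGL N (down g) * HeckeModule.degenMat q := (exists_down g).choose_spec

theorem down_injective : Function.Injective (down : Gamma0 (N * q) →* Gamma0 N) := fun g h e =>
  HeckeModule.toGL_injective (mul_left_cancel (a := HeckeModule.degenMat q) (by
    rw [down_rel, down_rel, e]))

theorem down_eq_iff {g : Gamma0 (N * q)} {g' : Gamma0 N} :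
    down g = g' ↔ HeckeModule.degenMat q * HeckeModule.toGL (N * q) g
      = HeckeModule.toGL N g' * HeckeModule.degenMat q :=
  ⟨fun h => h ▸ down_rel g, fun h => HeckeModule.toGL_injective (mul_right_cancel (b := HeckeModule.degenMat q)
    ((down_rel g).symm.trans h))⟩

theorem exists_twistKer_down (hqN : q.Coprime N) {g : Gamma0 N} (hg : g ∈ scalarKer N q) :
    ∃ k : twistKer N q, down (k : Gamma0 (N * q)) = g := by
  obtain ⟨⟨b, hb⟩, hc, hd⟩ := scalarKer_facts hg
  obtain ⟨c, hc'⟩ : ((N * q : ℕ) : ℤ) ∣ (g : SL(2, ℤ)) 1 0 := by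
    push_cast
    exact (Int.isCoprime_iff_gcd_eq_one.mpr (by simpa using hqN.symm)).mul_dvd
      ((HeckeJ0.mem_Gamma0_iff_dvd _).mp g.2) hc
  push_cast at hc'
  let k : Gamma0 (N * q) := ⟨⟨!![(g : SL(2, ℤ)) 0 0, b; (q : ℤ) * (g : SL(2, ℤ)) 1 0,
    (g : SL(2, ℤ)) 1 1], by
      have hdet := (g : SL(2, ℤ)).det_coe
      rw [Matrix.det_fin_two, hb] at hdet
      rw [Matrix.det_fin_two_of]
      linear_combination hdet⟩,
    (HeckeJ0.mem_Gamma0_iff_dvd _).mpr ⟨q * c, by simp [hc']; ring⟩⟩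
  refine ⟨⟨k, ?_, ?_⟩, down_eq_iff.mpr (Units.ext ?_)⟩
  · show (k : SL(2, ℤ)) ∈ Gamma0 (N * q * q)
    rw [HeckeJ0.mem_Gamma0_iff_dvd]
    exact ⟨c, by simp [k, hc']; ring⟩
  · refine Units.ext ?_
    show ((dMod N q k ^ 2 : (ZMod q)ˣ) : ZMod q) = 1
    rw [Units.val_pow_eq_pow_val, coe_dMod]
    exact hd
  · have hbR : (((g : SL(2, ℤ)) 0 1 : ℤ) : ℝ) = (q : ℝ) * b := by exact_mod_cast hb
    rw [Units.val_mul, Units.val_mul, HeckeModule.val_degenMat (NeZero.ne q)]
    ext i j
    simp only [Matrix.mul_apply, Fin.sum_univ_two, HeckeModule.toGL_apply,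
      HeckeJ0.val_mapGL_apply]
    fin_cases i <;> fin_cases j <;> simp [k, hbR] <;> ring

theorem down_mem_scalarKer (k : twistKer N q) :
    down (k : Gamma0 (N * q)) ∈ scalarKer N q := by
  obtain ⟨g', hg, h11, h00, h01, h10⟩ := HeckeModule.exists_conjDegen (NeZero.ne q)
    (show q * N ∣ N * q by rw [mul_comm]) (k : Gamma0 (N * q))
  rw [down_eq_iff.mpr hg, scalarKer, Subgroup.mem_comap,
    Matrix.SpecialLinearGroup.mem_center_iff]
  set d : ZMod q := ((((k : Gamma0 (N * q)) : SL(2, ℤ)) 1 1 : ℤ) : ZMod q) with hd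
  have hd2 : d ^ 2 = 1 := by
    rw [hd, ← coe_dMod, ← Units.val_pow_eq_pow_val]
    exact congrArg Units.val k.2.2
  have had : ((((k : Gamma0 (N * q)) : SL(2, ℤ)) 0 0 : ℤ) : ZMod q) = d := by
    rw [hd, ZMod.intCast_eq_intCast_iff_dvd_sub]
    exact twistKer_sub_dvd k.2
  have hc : (((g' : SL(2, ℤ)) 1 0 : ℤ) : ZMod q) = 0 := by
    obtain ⟨c, hc⟩ := twistKer_dvd k.2
    push_cast at hc
    rw [ZMod.intCast_zmod_eq_zero_iff_dvd]
    refine ⟨(N : ℤ) * c, mul_left_cancel₀ (Int.natCast_ne_zero.mpr (NeZero.ne q)) ?_⟩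
    rw [h10, hc]
    ring
  refine ⟨d, by simpa using hd2, ?_⟩
  ext i j
  rw [Matrix.scalar_apply]
  fin_cases i <;> fin_cases j <;> simp [Matrix.diagonal, h00, h11, h01, hc, had, hd]

end Down

/-- Translations in `Γ₀(N)`. -/
def tau (N : ℕ) (i : ℤ) : Gamma0 N :=
  ⟨⟨!![1, i; 0, 1], by simp [Matrix.det_fin_two_of]⟩,
    (HeckeJ0.mem_Gamma0_iff_dvd _).mpr (dvd_zero _)⟩

theorem degenMat_mul_twistMat [NeZero q] (i : ℤ) :
    HeckeModule.degenMat q * twistMat q i = HeckeModule.toGL N (tau N i) * HeckeModule.degenMat q := by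
  have hqR : (q : ℝ) ≠ 0 := Nat.cast_ne_zero.mpr (NeZero.ne q)
  refine Units.ext ?_
  rw [Units.val_mul, Units.val_mul, val_twistMat, HeckeModule.val_degenMat (NeZero.ne q)]
  ext a b
  simp only [Matrix.mul_apply, Fin.sum_univ_two, HeckeModule.toGL_apply, HeckeJ0.val_mapGL_apply]
  fin_cases a <;> fin_cases b <;> simp [tau]
  field_simp

theorem down_toShift [NeZero q] (i : ℤ) (k : twistKer N q) :
    down (toShift i k) * tau N i = tau N i * down (k : Gamma0 (N * q)) := by
  refine HeckeModule.toGL_injective (mul_right_cancel (b := HeckeModule.degenMat q) ?_)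
  rw [map_mul, map_mul, mul_assoc, mul_assoc, ← degenMat_mul_twistMat, ← down_rel, ← mul_assoc,
    ← mul_assoc, ← down_rel, ← degenMat_mul_twistMat, mul_assoc, mul_assoc, toShift_rel]

section Values

variable {K : Type} [Field K] {χ : (ZMod (N * q))ˣ →* K} {ψ : (ZMod q)ˣ →* K}
  (hχψ : ∀ h ∈ charKer N q (ψ ^ 2), χ (HeckeModule.dUnit (N * q) h) = 1)
  (c : HeckeModule.Cocycle (HeckeModule.scalarRep χ K))

include hχψ in
theorem cocycle_conj {h : Gamma0 (N * q)} (hh : h ∈ charKer N q (ψ ^ 2)) {k k' : Gamma0 (N * q)}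
    (hk' : k' ∈ charKer N q (ψ ^ 2)) (e : h * k = k' * h) : c.1 k' = c.1 k := by
  have hmul : ∀ g ∈ charKer N q (ψ ^ 2), ∀ g', c.1 (g * g') = c.1 g + c.1 g' := fun g hg g' => by
    rw [c.2.1, HeckeModule.gammaRep_apply, HeckeModule.scalarRep_apply, hχψ g hg, one_smul]
  have e' := congrArg c.1 e
  rw [hmul h hh, hmul k' hk', add_comm (c.1 k')] at e'
  exact (add_left_cancel e').symm

variable [NeZero q]

include hχψ in
theorem toShift_periodic (k : twistKer N q) (i n : ℤ) :
    c.1 (toShift (i + (q : ℤ) * n) k) = c.1 (toShift i k) := by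
  refine cocycle_conj hχψ c (h := tau (N * q) n) ?_ (toShift_mem_charKer ψ _ _) ?_
  · show (ψ ^ 2) (dMod N q (tau (N * q) n)) = 1
    rw [show dMod N q (tau (N * q) n) = 1 from Units.ext (by rw [coe_dMod]; simp [tau]), map_one]
  · have htau : twistMat q ((q : ℤ) * n) = HeckeModule.toGL (N * q) (tau (N * q) n) := by
      have hqR : (q : ℝ) ≠ 0 := Nat.cast_ne_zero.mpr (NeZero.ne q)
      refine Units.ext ?_
      ext x y
      rw [val_twistMat, HeckeModule.toGL_apply, HeckeJ0.val_mapGL_apply]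
      fin_cases x <;> fin_cases y <;> simp [tau, hqR]
    refine HeckeModule.toGL_injective (mul_right_cancel (b := twistMat q i) ?_)
    rw [map_mul, map_mul, mul_assoc, ← toShift_rel, ← mul_assoc, ← htau, ← twistMat_add,
      mul_assoc, ← twistMat_add, add_comm ((q : ℤ) * n) i, toShift_rel]

/-- The values on the translates. -/
def shiftVal (k : twistKer N q) (x : ZMod q) : K := c.1 (toShift ((x.val : ℕ) : ℤ) k)

include hχψ in
theorem shiftVal_eq (k : twistKer N q) (i : ℤ) :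
    c.1 (toShift i k) = shiftVal c k (i : ZMod q) := by
  obtain ⟨n, hn⟩ : (q : ℤ) ∣ i - (((i : ZMod q).val : ℕ) : ℤ) := by
    rw [← ZMod.intCast_zmod_eq_zero_iff_dvd]
    simp
  show _ = c.1 (toShift (((i : ZMod q).val : ℕ) : ℤ) k)
  conv_lhs => rw [show i = (((i : ZMod q).val : ℕ) : ℤ) + (q : ℤ) * n by linarith]
  exact toShift_periodic hχψ c k _ n

theorem shiftVal_zero (k : twistKer N q) : shiftVal c k 0 = c.1 (k : Gamma0 (N * q)) := by
  refine congrArg c.1 (HeckeModule.toGL_injective (mul_right_cancel (b := twistMat q 0) ?_))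
  rw [ZMod.val_zero, Nat.cast_zero, ← toShift_rel, twistMat_zero, one_mul, mul_one]

include hχψ in
theorem twisted_apply_conjShift [Fact q.Prime] {χ' : (ZMod (N * q * q))ˣ →* K}
    (hχ : TwistChar χ χ' ψ (dvd_mul_left q N) (dvd_refl _)) (k : twistKer N q) (b : (ZMod q)ˣ) :
    (twistData K hχ).raw c.1 (conjShift ((b : ZMod q).val : ℤ) k)
      = ∑ b' : (ZMod q)ˣ, ψ b' * shiftVal c k ((b' : ZMod q) + b) := by
  rw [HeckeModule.Data.raw_apply]
  refine Finset.sum_congr rfl fun b' _ => ?_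
  show ψ b' • c.1 _ = _
  rw [smul_eq_mul]
  refine congrArg (ψ b' * ·) ?_
  rw [((twistData K hχ).spec_unique HeckeModule.toGL_injective (x := b') (y := b')
    (g := toShift (twistVal b' + ((b : ZMod q).val : ℤ)) k) ?_).2, shiftVal_eq hχψ]
  · rw [Int.cast_add, twistVal_cast, Int.cast_natCast, ZMod.natCast_zmod_val]
  · refine mul_right_cancel (b := twistMat q ((b : ZMod q).val : ℤ)) ?_
    show twistMat q (twistVal b') * _ * _ = _ * twistMat q (twistVal b') * _
    rw [mul_assoc (twistMat q (twistVal b')), ← conjShift_rel,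
      ← mul_assoc (twistMat q (twistVal b')), ← twistMat_add,
      mul_assoc (HeckeModule.toGL (N * q) _), ← twistMat_add, toShift_rel]

end Values

section Invariance

variable [NeZero N] [NeZero q] {K : Type} [Field K] [CharZero K] {χ : (ZMod (N * q))ˣ →* K}
  {ψ : (ZMod q)ˣ →* K} (hχψ : ∀ h ∈ charKer N q (ψ ^ 2), χ (HeckeModule.dUnit (N * q) h) = 1)
  (c : HeckeModule.Cocycle (HeckeModule.scalarRep χ K))

theorem down_conjRep_mul (p : TwistCosets N q ψ) (i : ℤ) (k' : twistKer N q) :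
    down (toShift i (conjRep p k')) *
        (tau N i * down ((p.out : charKer N q (ψ ^ 2)) : Gamma0 (N * q)))
      = tau N i * down ((p.out : charKer N q (ψ ^ 2)) : Gamma0 (N * q))
        * down (k' : Gamma0 (N * q)) := by
  rw [← mul_assoc, down_toShift]
  simp only [conjRep, MulAut.conjNormal_apply, map_mul, map_inv, mul_assoc, inv_mul_cancel,
    mul_one]

include hχψ in
theorem shift_invariant [Fact q.Prime] (hqN : ¬ q ∣ N)
    (hid : ∀ k : twistKer N q,
      ((Fintype.card (TwistCosets N q ψ) * q : ℕ) : K) * c.1 (k : Gamma0 (N * q))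
        = ∑ p : TwistCosets N q ψ × ZMod q, shiftVal c (conjRep p.1 k) p.2) (k : twistKer N q) :
    c.1 (toShift 1 k) = c.1 (k : Gamma0 (N * q)) := by
  classical
  have hqp : q.Prime := Fact.out
  rw [← sub_eq_zero, ← Module.forall_dual_apply_eq_zero_iff ℚ]
  intro φ
  rw [map_sub, sub_eq_zero]
  have hcop : q.Coprime N := (hqp.coprime_iff_not_dvd).mpr hqN
  have hker : ∀ k : twistKer N q, (k : Gamma0 (N * q)) ∈ charKer N q (ψ ^ 2) := fun k =>
    twistKer_le_charKer ψ k.2
  have hmemG : ∀ G : Gamma0 N, G * down (k : Gamma0 (N * q)) * G⁻¹ ∈ scalarKer N q := fun G =>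
    (inferInstance : (scalarKer N q).Normal).conj_mem _ (down_mem_scalarKer k) G
  choose pre hpre using fun G => exists_twistKer_down hcop (hmemG G)
  let f : Gamma0 N → ℚ := fun G => φ (c.1 (pre G : Gamma0 (N * q)))
  have hf : ∀ (G : Gamma0 N) (k' : Gamma0 N), k' ∈ scalarKer N q → f (G * k') = f G := by
    intro G k' hk'
    obtain ⟨s, hs⟩ := exists_twistKer_down hcop
      ((inferInstance : (scalarKer N q).Normal).conj_mem _ hk' G)
    refine congrArg φ (cocycle_conj hχψ c (hker s) (hker _) ?_)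
    refine down_injective ?_
    rw [map_mul, map_mul, hpre, hpre, hs]
    simp [mul_assoc]
  let F : Gamma0 N ⧸ scalarKer N q → ℚ := Quotient.lift f fun G G' h => by
    rw [← mul_inv_cancel_left G G']
    exact (hf G _ (QuotientGroup.leftRel_apply.mp h)).symm
  haveI : Fintype (Gamma0 N ⧸ scalarKer N q) := (scalarKer N q).fintypeQuotientOfFiniteIndex
  let el : TwistCosets N q ψ × ZMod q → Gamma0 N := fun p =>
    tau N ((p.2.val : ℕ) : ℤ) * down ((p.1.out : charKer N q (ψ ^ 2)) : Gamma0 (N * q))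
  have hel : ∀ (p : TwistCosets N q ψ × ZMod q) (k' : twistKer N q) (G : Gamma0 N),
      down (k' : Gamma0 (N * q)) = G * down (k : Gamma0 (N * q)) * G⁻¹ →
      c.1 (pre (el p * G) : Gamma0 (N * q)) = shiftVal c (conjRep p.1 k') p.2 := by
    intro p k' G hk'
    refine congrArg c.1 (down_injective (mul_right_cancel (b := el p) ?_))
    rw [hpre, down_conjRep_mul, hk']
    simp [el, mul_assoc]
  have hF : ∀ x : Gamma0 N ⧸ scalarKer N q,
      (Fintype.card (TwistCosets N q ψ × ZMod q) : ℚ) * F x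
        = ∑ p, F (MulAction.toPerm (el p) x) := by
    rintro ⟨G⟩
    show (Fintype.card (TwistCosets N q ψ × ZMod q) : ℚ) * φ (c.1 _)
      = ∑ p, φ (c.1 (pre (el p * G) : Gamma0 (N * q)))
    rw [Finset.sum_congr rfl fun p _ => congrArg φ (hel p (pre G) G (hpre G)), ← map_sum, ← hid,
      Fintype.card_prod, ZMod.card, ← nsmul_eq_mul, ← nsmul_eq_mul, map_nsmul]
  set p₀ : TwistCosets N q ψ × ZMod q :=
    (((1 : charKer N q (ψ ^ 2)) : TwistCosets N q ψ), 1)
  have h₁ : φ (c.1 (pre (el p₀ * 1) : Gamma0 (N * q))) = φ (c.1 (pre 1 : Gamma0 (N * q))) :=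
    apply_perm_eq_of_sum (fun p => MulAction.toPerm (el p)) F hF p₀
      ((1 : Gamma0 N) : Gamma0 N ⧸ scalarKer N q)
  have hp1 : c.1 (pre 1 : Gamma0 (N * q)) = c.1 (k : Gamma0 (N * q)) :=
    congrArg c.1 (down_injective (by rw [hpre]; simp))
  rw [hel p₀ k 1 (by simp), hp1] at h₁
  have hone : ((((1 : ZMod q).val : ℕ)) : ℤ) = 1 := by
    haveI : Fact (1 < q) := ⟨hqp.one_lt⟩
    simp [ZMod.val_one]
  -- the representative of the trivial coset lies in `twistKer`
  have hout : ((p₀.1.out : charKer N q (ψ ^ 2)) : Gamma0 (N * q)) ∈ twistKer N q := by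
    have h := QuotientGroup.mk_out_eq_mul
      ((twistKer N q).subgroupOf (charKer N q (ψ ^ 2))) (1 : charKer N q (ψ ^ 2))
    obtain ⟨⟨s, hs⟩, e⟩ := h
    rw [show p₀.1.out = _ from e]
    simpa using Subgroup.mem_subgroupOf.mp hs
  rw [← h₁]
  refine congrArg φ ?_
  show c.1 (toShift 1 k) = c.1 (toShift (((1 : ZMod q).val : ℕ) : ℤ) (conjRep p₀.1 k))
  rw [hone]
  refine (cocycle_conj hχψ c (h := toShift 1 ⟨_, hout⟩) (toShift_mem_charKer ψ _ _)
    (toShift_mem_charKer ψ _ _) ?_).symm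
  refine HeckeModule.toGL_injective (mul_right_cancel (b := twistMat q 1) ?_)
  rw [map_mul, map_mul, mul_assoc, ← toShift_rel, ← mul_assoc, ← toShift_rel, mul_assoc,
    mul_assoc (HeckeModule.toGL (N * q) (toShift 1 (conjRep p₀.1 k))), ← toShift_rel,
    ← mul_assoc (HeckeModule.toGL (N * q) (toShift 1 (conjRep p₀.1 k))), ← toShift_rel]
  simp [conjRep, mul_assoc, map_mul]

end Invariance

section Identity

variable [NeZero N] [NeZero q] [Fact q.Prime] {K : Type} [Field K] [CharZero K]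
  {χ : (ZMod (N * q))ˣ →* K} (ψ : (ZMod q)ˣ →* Kˣ)
  (hχψ : ∀ h ∈ charKer N q (((Units.coeHom K).comp ψ) ^ 2),
    χ (HeckeModule.dUnit (N * q) h) = 1)
  (c : HeckeModule.Cocycle (HeckeModule.scalarRep χ K))

include hχψ in
theorem average_of_twistFun_eq_zero (hψ : (Units.coeHom K).comp ψ ≠ 1)
    (φ : Additive (Gamma0 (N * q * q)) →+ K)
    (hφ : ∀ (k : twistKer N q) (b : (ZMod q)ˣ),
      φ (Additive.ofMul (conjShift ((b : ZMod q).val : ℤ) k))
        = ∑ b' : (ZMod q)ˣ,
          (Units.coeHom K).comp ψ b' * shiftVal c k ((b' : ZMod q) + b))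
    (h0 : ∀ k : twistKer N q, twistFun ψ φ k = 0) (k : twistKer N q) :
    ((Fintype.card (TwistCosets N q ((Units.coeHom K).comp ψ)) * q : ℕ) : K)
        * c.1 (k : Gamma0 (N * q))
      = ∑ p : TwistCosets N q ((Units.coeHom K).comp ψ) × ZMod q,
          shiftVal c (conjRep p.1 k) p.2 := by
  have hne : ((ψ (-1) : Kˣ) : K) ≠ 0 := Units.ne_zero _
  have h2 : ∀ h : TwistCosets N q ((Units.coeHom K).comp ψ),
      ∑ b : (ZMod q)ˣ, (((ψ b)⁻¹ : Kˣ) : K) *
        φ (Additive.ofMul (conjShift ((b : ZMod q).val : ℤ) (conjRep h k)))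
      = ((ψ (-1) : Kˣ) : K) * ((q : K) * shiftVal c (conjRep h k) 0
          - ∑ z, shiftVal c (conjRep h k) z) := by
    intro h
    rw [← twisted_double_sum hψ (shiftVal c (conjRep h k)) 0, Finset.mul_sum]
    refine Finset.sum_congr rfl fun b _ => ?_
    rw [hφ, ← mul_assoc]
    simp only [add_zero, MonoidHom.comp_apply, Units.coeHom_apply]
    congr 1
    rw [show -b = (-1) * b from (neg_one_mul b).symm, map_mul, Units.val_mul, mul_inv, ← mul_assoc,
      mul_inv_cancel₀ hne, one_mul, Units.val_inv_eq_inv_val]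
  have h := h0 k
  rw [twistFun] at h
  simp only [Finset.mul_sum] at h
  rw [Finset.sum_comm, Finset.sum_congr rfl fun h _ => h2 h, ← Finset.mul_sum] at h
  have h3 := (mul_eq_zero.mp h).resolve_left hne
  rw [Finset.sum_sub_distrib, sub_eq_zero] at h3
  rw [Fintype.sum_prod_type, ← h3]
  have h4 : ∀ h : TwistCosets N q ((Units.coeHom K).comp ψ),
      shiftVal c (conjRep h k) 0 = c.1 (k : Gamma0 (N * q)) := fun h => by
    rw [shiftVal_zero]
    refine cocycle_conj hχψ c h.out.2 (twistKer_le_charKer _ (conjRep h k).2) ?_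
    simp [conjRep]
  rw [Finset.sum_congr rfl fun h _ => show (q : K) * shiftVal c (conjRep h k) 0 = _ by rw [h4 h],
    Finset.sum_const, Finset.card_univ, nsmul_eq_mul, Nat.cast_mul, mul_assoc]

end Identity

section Vec

variable {M : ℕ} [NeZero M] {K : Type} [Field K] [CharZero K]

theorem exists_vec_of_class {S : Finset ℕ} {a : ℕ → K} (hMS : ∀ ℓ : ℕ, ℓ.Prime → ℓ ∣ M → ℓ ∈ S)
    (w : HeckeModule.Cocycle (HeckeModule.scalarRep (1 : (ZMod M)ˣ →* K) K))
    (hsys : IsEigen _ S a (HeckeModule.toCoh _ w)) (hne : NonEisensteinSystem M S a) :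
    ∃ v : Fin (HeckeJ0.rk M) → K,
      (∀ ℓ : Nat.Primes, (ℓ : ℕ) ∉ S →
        Matrix.mulVec ((HeckeJ0.heckeMatAt M ℓ).map (Int.cast : ℤ → K)) v = a ℓ • v) ∧
      HeckeJ0.frickeTwist (HeckeJ0.ofCoords M v) = homOf scalarRep_one w := by
  have hgood : HeckeJ0.IsGoodHom M (homOf scalarRep_one w) :=
    HeckeJ0.isGoodHom_of_parabolic (isParabolicHom_homOf scalarRep_one fun x y hxy =>
      apply_parElt_eq_zero (fun t ht z hz => (smul_eq_zero.mp hz).resolve_left ht) hsys hne hxy)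
  refine ⟨HeckeJ0.coords M (HeckeJ0.frickeTwist (homOf scalarRep_one w)), fun ℓ hℓS => ?_, ?_⟩
  · haveI : Fact (ℓ : ℕ).Prime := ⟨ℓ.2⟩
    haveI : NeZero (ℓ : ℕ) := ⟨ℓ.2.ne_zero⟩
    have hℓM : ¬ (ℓ : ℕ) ∣ M := fun h => hℓS (hMS _ ℓ.2 h)
    show Matrix.mulVec ((HeckeJ0.heckeMat M (ℓ : ℕ)).map (Int.cast : ℤ → K)) _ = _
    rw [← HeckeJ0.coords_cohHecke_ofCoords, ofCoords_coords_field (isGoodHom_frickeTwist hgood),
      cohHecke_frickeTwist hℓM]
    funext i
    show HeckeJ0.cohHecke (ℓ : ℕ) (homOf scalarRep_one w)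
        (Additive.ofMul (HeckeJ0.frickeConj _))
      = a ℓ * homOf scalarRep_one w (Additive.ofMul (HeckeJ0.frickeConj _))
    set γ := HeckeJ0.frickeConj (HeckeJ0.cyc M i)
    have e := congrFun (raw_eq_of_eigen scalarRep_one (hsys (ℓ : ℕ) hℓS hℓM)) γ
    rw [raw_apply_trivial scalarRep_one] at e
    rw [HeckeJ0.cohHecke_apply]
    refine Eq.trans (Finset.sum_congr rfl fun x _ => ?_) e
    refine (homOf_apply scalarRep_one w _).trans (congrArg w.1 ?_)
    exact ((HeckeModule.heckeData (HeckeModule.scalarRep (1 : (ZMod M)ˣ →* K) K)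
      (ℓ : ℕ)).spec_unique HeckeModule.toGL_injective (x := x) (y := HeckeJ0.permOf γ x)
        (γ := γ) (g := HeckeJ0.gOf x γ) (HeckeJ0.rep_mul x γ)).2.symm
  · rw [ofCoords_coords_field (isGoodHom_frickeTwist hgood), frickeTwist_frickeTwist]

end Vec

section Assemble

variable {K : Type} [Field K] [CharZero K]

theorem twistChar_sq [NeZero q] [Fact q.Prime] (ψ : (ZMod q)ˣ →* Kˣ) :
    TwistChar (((Units.coeHom K).comp (ψ ^ 2)).comp (ZMod.unitsMap (dvd_mul_left q N)))
      (1 : (ZMod (N * q * q))ˣ →* K) ((Units.coeHom K).comp ψ) (dvd_mul_left q N)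
      (dvd_refl _) := by
  intro v
  rw [MonoidHom.one_apply, one_mul]
  simp only [MonoidHom.comp_apply, MonoidHom.pow_apply, Units.coeHom_apply, Units.val_pow_eq_pow_val]
  congr 3
  rw [← MonoidHom.comp_apply (ZMod.unitsMap _) (ZMod.unitsMap _) v, ZMod.unitsMap_comp]

theorem sq_eq_one_on_charKer (ψ : (ZMod q)ˣ →* Kˣ) :
    ∀ h ∈ charKer N q (((Units.coeHom K).comp ψ) ^ 2),
      (((Units.coeHom K).comp (ψ ^ 2)).comp (ZMod.unitsMap (dvd_mul_left q N)))
        (HeckeModule.dUnit (N * q) h) = 1 := fun h hh => by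
  have hh' : (((Units.coeHom K).comp ψ) ^ 2) (dMod N q h) = 1 := hh
  simpa [dMod, Units.val_pow_eq_pow_val] using hh'

theorem eq_toShift_of_rel [NeZero q] {k' : Gamma0 (N * q)} (k : twistKer N q)
    (h : twistMat q 1 * HeckeModule.toGL (N * q) (k : Gamma0 (N * q))
      = HeckeModule.toGL (N * q) k' * twistMat q 1) : k' = toShift 1 k :=
  HeckeModule.toGL_injective (mul_right_cancel (h.symm.trans (toShift_rel 1 k)))

theorem mem_twistKer_of_mem_smallGroup {k : Gamma0 (N * q)}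
    (hk : k ∈ smallGroup (N * q) (N * q * q)) : k ∈ twistKer N q := by
  refine ⟨(HeckeJ0.mem_Gamma0_iff_dvd _).mpr hk.1, ?_⟩
  show dMod N q k ^ 2 = 1
  rw [show dMod N q k = 1 by rw [dMod, MonoidHom.comp_apply, hk.2, map_one], one_pow]

/-- The non-vanishing input of the twisting argument. -/
theorem twistClassExists (K : Type) [Field K] [CharZero K] (N q : ℕ) [NeZero N] [NeZero q] :
    TwistClassExists K N q := by
  intro hqp hqN ψ hψ S lam a hqS hNS hc hlam hne
  obtain ⟨u, hu0, hu⟩ := hc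
  haveI : Fact q.Prime := ⟨hqp⟩
  have hχ := twistChar_sq (N := N) ψ
  have hψK2 : ((Units.coeHom K).comp ψ) ^ 2 ≠ 1 := fun h =>
    hψ (MonoidHom.ext fun v => Units.ext (by
      simpa [Units.val_pow_eq_pow_val] using DFunLike.congr_fun h v))
  have hψK1 : (Units.coeHom K).comp ψ ≠ 1 := fun h => hψK2 (by rw [h, one_pow])
  obtain ⟨c, rfl⟩ := HeckeModule.toCoh_surjective _ u
  -- the twisted homomorphism
  have hMS : ∀ ℓ : ℕ, ℓ.Prime → ℓ ∣ N * q * q → ℓ ∈ S := by
    intro ℓ hℓ h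
    rcases (Nat.Prime.dvd_mul hℓ).mp h with h' | h'
    · rcases (Nat.Prime.dvd_mul hℓ).mp h' with h'' | h''
      · exact hNS _ hℓ h''
      · rwa [(Nat.prime_dvd_prime_iff_eq hℓ hqp).mp h'']
    · rwa [(Nat.prime_dvd_prime_iff_eq hℓ hqp).mp h']
  have hsys : IsEigen (HeckeModule.scalarRep (1 : (ZMod (N * q * q))ˣ →* K) K) S a
      (HeckeModule.toCoh _ ((twistData K hχ).onCocycles HeckeModule.toGL_injective c)) := by
    intro ℓ hℓ hℓS hℓM
    have hℓq : ℓ ≠ q := fun h => hℓS (h ▸ hqS)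
    have hℓN : ¬ ℓ ∣ N * q := fun h => hℓM (h.trans (dvd_mul_right _ q))
    have h2 := twist_heckeOp hχ hℓq (fun h => absurd h hℓM) (HeckeModule.toCoh _ c)
    rw [hu ℓ hℓS hℓN, map_smul, twist_toCoh,
      ← hlam ℓ ((Nat.coprime_primes hℓ.out hqp).mpr hℓq) hℓ.out hℓS, mul_comm (a ℓ), mul_smul] at h2
    exact ((smul_right_injective _ (Units.ne_zero _)) h2).symm
  obtain ⟨v, hv, hvw⟩ := exists_vec_of_class hMS _ hsys hne
  refine ⟨v, hv, ?_⟩
  rw [hvw]
  by_contra hall
  push Not at hall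
  refine hu0 (toCoh_eq_zero_of_translation hχ hqN hψK2 (fun _ _ => rfl) c ?_)
  intro k₀ hk₀ k₀' hk₀'
  rw [eq_toShift_of_rel ⟨k₀, mem_twistKer_of_mem_smallGroup hk₀⟩ hk₀']
  exact shift_invariant (sq_eq_one_on_charKer ψ) c hqN
    (average_of_twistFun_eq_zero ψ (sq_eq_one_on_charKer ψ) c hψK1 _
      (fun k b => twisted_apply_conjShift (sq_eq_one_on_charKer ψ) c hχ k b) hall) _

end Assemble

end Fermat.Agent.XHLite
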